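/-
Program C (S55), package C9b (designer helper70), leaf (GS-DEFS) — helper42.

Definitions for the `G_S`-modules `ℚ_S^×`, `E_S` (the `S`-units of `ℚ_S`), `μ_p`,
`P_S = ℚ_S^× / E_S` as `Rep ℤ Gal(ℚ̄/ℚ)`, the morphisms between them, the two short exact
sequences `0 → E_S → ℚ_S^× → P_S → 0` and `0 → μ_p → E_S → E_S → 0`, the level datum of
`G_S(F)` and the pointwise smoothness of the four modules.
-/
import Mathlib
import Fermat.Prelude.Def_GroupCohomology_ContinuousUnramified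
import Fermat.Agent.S55.H49.LevelDefs
import Fermat.Agent.S55.H43.Levels
import Fermat.Agent.S55.H87.UnrKummer

set_option autoImplicit false

open CategoryTheory
open scoped Pointwise

noncomputable section

namespace Fermat.Agent.S55.H42

local notation "Qb" => AlgebraicClosure ℚ
local notation "GQ" => (AlgebraicClosure ℚ ≃ₐ[ℚ] AlgebraicClosure ℚ)

/-! ### The three subgroups of `ℚ̄ˣ` -/

/-- The units of `ℚ_S`: elements of `ℚ̄ˣ` lying in a finite extension unramified outside `S`. -/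
def qsUnits (S : Finset Nat.Primes) : Subgroup Qbˣ where
  carrier := {u | ∃ N : IntermediateField ℚ Qb, N.IsUnramifiedOutside S ∧ (u : Qb) ∈ N}
  mul_mem' := by
    rintro a b ⟨N, hN, ha⟩ ⟨N', hN', hb⟩
    refine ⟨N ⊔ N', hN.sup hN', ?_⟩
    rw [Units.val_mul]
    exact mul_mem ((le_sup_left : N ≤ N ⊔ N') ha) ((le_sup_right : N' ≤ N ⊔ N') hb)
  one_mem' := ⟨⊥, IntermediateField.isUnramifiedOutside_bot S, by
    rw [Units.val_one]
    exact one_mem _⟩
  inv_mem' := by
    rintro a ⟨N, hN, ha⟩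
    refine ⟨N, hN, ?_⟩
    rw [Units.val_inv_eq_inv_val]
    exact inv_mem ha

theorem mem_qsUnits {S : Finset Nat.Primes} {u : Qbˣ} :
    u ∈ qsUnits S ↔ ∃ N : IntermediateField ℚ Qb, N.IsUnramifiedOutside S ∧ (u : Qb) ∈ N :=
  Iff.rfl

/-- The `S`-units of `ℚ_S`: units of `ℚ_S` which are units at every valuation subring of `ℚ̄`
over a prime outside `S`. -/
def sUnits (S : Finset Nat.Primes) : Subgroup Qbˣ where
  carrier := {u | u ∈ qsUnits S ∧ ∀ q : Nat.Primes, q ∉ S → ∀ A : ValuationSubring Qb,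
    A.LiesOverPrime (q : ℕ) → (u : Qb) ∈ A ∧ ((u⁻¹ : Qbˣ) : Qb) ∈ A}
  mul_mem' := by
    rintro a b ⟨ha, ha'⟩ ⟨hb, hb'⟩
    refine ⟨mul_mem ha hb, fun q hq A hA => ?_⟩
    obtain ⟨h1, h2⟩ := ha' q hq A hA
    obtain ⟨h3, h4⟩ := hb' q hq A hA
    refine ⟨?_, ?_⟩
    · rw [Units.val_mul]
      exact mul_mem h1 h3
    · rw [mul_inv, Units.val_mul]
      exact mul_mem h2 h4
  one_mem' := ⟨one_mem _, fun q _ A _ => by
    rw [inv_one, Units.val_one]
    exact ⟨one_mem _, one_mem _⟩⟩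
  inv_mem' := by
    rintro a ⟨ha, ha'⟩
    refine ⟨inv_mem ha, fun q hq A hA => ?_⟩
    obtain ⟨h1, h2⟩ := ha' q hq A hA
    rw [inv_inv]
    exact ⟨h2, h1⟩

theorem mem_sUnits {S : Finset Nat.Primes} {u : Qbˣ} :
    u ∈ sUnits S ↔ u ∈ qsUnits S ∧ ∀ q : Nat.Primes, q ∉ S → ∀ A : ValuationSubring Qb,
      A.LiesOverPrime (q : ℕ) → (u : Qb) ∈ A ∧ ((u⁻¹ : Qbˣ) : Qb) ∈ A :=
  Iff.rfl

theorem sUnits_le_qsUnits (S : Finset Nat.Primes) : sUnits S ≤ qsUnits S := fun _ h => h.1

/-- The `p`-th roots of unity. -/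
def muUnits (p : ℕ) : Subgroup Qbˣ where
  carrier := {u | u ^ p = 1}
  mul_mem' := by
    intro a b ha hb
    show (a * b) ^ p = 1
    rw [mul_pow, show a ^ p = 1 from ha, show b ^ p = 1 from hb, one_mul]
  one_mem' := one_pow p
  inv_mem' := by
    intro a ha
    show a⁻¹ ^ p = 1
    rw [inv_pow, show a ^ p = 1 from ha, inv_one]

theorem mem_muUnits {p : ℕ} {u : Qbˣ} : u ∈ muUnits p ↔ u ^ p = 1 := Iff.rfl

/-! ### Galois stability -/

theorem coe_smul_units (g : GQ) (u : Qbˣ) : ((g • u : Qbˣ) : Qb) = g (u : Qb) := rfl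

theorem smul_mem_qsUnits {S : Finset Nat.Primes} (g : GQ) {u : Qbˣ} (hu : u ∈ qsUnits S) :
    g • u ∈ qsUnits S := by
  obtain ⟨N, hN, hu⟩ := hu
  exact ⟨N.map (g : Qb →ₐ[ℚ] Qb), H43.isUnramifiedOutside_map hN g, ⟨(u : Qb), hu, rfl⟩⟩

theorem smul_mem_muUnits {p : ℕ} (g : GQ) {u : Qbˣ} (hu : u ∈ muUnits p) :
    g • u ∈ muUnits p := by
  show (g • u) ^ p = 1
  rw [← smul_pow', show u ^ p = 1 from hu, smul_one]

theorem smul_mem_sUnits {S : Finset Nat.Primes} (g : GQ) {u : Qbˣ} (hu : u ∈ sUnits S) :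
    g • u ∈ sUnits S := by
  refine ⟨smul_mem_qsUnits g hu.1, fun q hq A hA => ?_⟩
  obtain ⟨h1, h2⟩ := hu.2 q hq (g⁻¹ • A) (H43.liesOverPrime_smul A g⁻¹ hA)
  rw [ValuationSubring.mem_inv_pointwise_smul_iff] at h1 h2
  refine ⟨h1, ?_⟩
  have e : (((g • u)⁻¹ : Qbˣ) : Qb) = g • ((u⁻¹ : Qbˣ) : Qb) := by
    rw [← smul_inv', coe_smul_units]
    rfl
  rw [e]
  exact h2

/-! ### The ambient representation -/

/-- The ambient representation `ℚ̄ˣ` of `Gal(ℚ̄/ℚ)` (written additively). -/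
abbrev baseRep : Rep.{0} ℤ GQ := Rep.ofAlgebraAutOnUnits ℚ Qb

/-- The `ℤ`-submodule of `Additive ℚ̄ˣ` attached to a subgroup of `ℚ̄ˣ`. -/
def subOf (H : Subgroup Qbˣ) : Submodule ℤ baseRep :=
  (AddSubgroup.toIntSubmodule (Subgroup.toAddSubgroup H) : Submodule ℤ (Additive Qbˣ))

/-- The unit of `ℚ̄` underlying an element of the ambient representation. -/
def toUnit (x : baseRep) : Qbˣ := Additive.toMul (show Additive Qbˣ from x)

/-- The element of the ambient representation given by a unit of `ℚ̄`. -/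
def ofUnit (u : Qbˣ) : baseRep := (Additive.ofMul u : Additive Qbˣ)

@[simp] theorem toUnit_ofUnit (u : Qbˣ) : toUnit (ofUnit u) = u := rfl

@[simp] theorem ofUnit_toUnit (x : baseRep) : ofUnit (toUnit x) = x := rfl

theorem toUnit_add (x y : baseRep) : toUnit (x + y) = toUnit x * toUnit y := rfl

theorem toUnit_zero : toUnit (0 : baseRep) = 1 := rfl

theorem toUnit_neg (x : baseRep) : toUnit (-x) = (toUnit x)⁻¹ := rfl

theorem toUnit_nsmul (n : ℕ) (x : baseRep) : toUnit (n • x) = toUnit x ^ n := rfl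

theorem toUnit_ρ (g : GQ) (x : baseRep) : toUnit (baseRep.ρ g x) = g • toUnit x := rfl

theorem toUnit_injective : Function.Injective toUnit := fun _ _ h => h

theorem mem_subOf {H : Subgroup Qbˣ} {x : baseRep} : x ∈ subOf H ↔ toUnit x ∈ H := Iff.rfl

theorem subOf_mono {H H' : Subgroup Qbˣ} (h : H ≤ H') : subOf H ≤ subOf H' :=
  fun _ hx => h hx

theorem subOf_le_comap {H : Subgroup Qbˣ} (hH : ∀ (g : GQ) (u : Qbˣ), u ∈ H → g • u ∈ H)
    (g : GQ) : subOf H ≤ (subOf H).comap (baseRep.ρ g) := by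
  intro x hx
  exact hH g _ hx

/-! ### Generic helpers: inclusions and quotients of subrepresentations -/

section Generic

variable {k G : Type} [CommRing k] [Group G] (A : Rep.{0} k G)

/-- The inclusion between two subrepresentations. -/
def subIncl {W W' : Submodule k A} (h : W ≤ W')
    (hW : ∀ g, W ≤ W.comap (A.ρ g)) (hW' : ∀ g, W' ≤ W'.comap (A.ρ g)) :
    Rep.subrepresentation A W hW ⟶ Rep.subrepresentation A W' hW' :=
  Rep.ofHom ⟨Submodule.inclusion h, fun _ => rfl⟩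

theorem subIncl_apply {W W' : Submodule k A} (h : W ≤ W') (hW : ∀ g, W ≤ W.comap (A.ρ g))
    (hW' : ∀ g, W' ≤ W'.comap (A.ρ g)) (x : W) :
    ((subIncl A h hW hW').hom x : A) = (x : A) := rfl

theorem subIncl_injective {W W' : Submodule k A} (h : W ≤ W') (hW : ∀ g, W ≤ W.comap (A.ρ g))
    (hW' : ∀ g, W' ≤ W'.comap (A.ρ g)) : Function.Injective (subIncl A h hW hW').hom := by
  intro x y hxy
  apply Subtype.ext
  have := congrArg (fun z : W' => (z : A)) hxy
  exact this

/-- The stability of the smaller submodule inside the larger subrepresentation. -/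
theorem comap_le_comap {W W' : Submodule k A} (hW : ∀ g, W ≤ W.comap (A.ρ g))
    (hW' : ∀ g, W' ≤ W'.comap (A.ρ g)) (g : G) :
    W.comap W'.subtype ≤ (W.comap W'.subtype).comap ((Rep.subrepresentation A W' hW').ρ g) := by
  intro x hx
  exact hW g hx

/-- The quotient of a subrepresentation by a smaller subrepresentation. -/
def subQuot {W W' : Submodule k A} (hW : ∀ g, W ≤ W.comap (A.ρ g))
    (hW' : ∀ g, W' ≤ W'.comap (A.ρ g)) : Rep.{0} k G :=
  Rep.quotient (Rep.subrepresentation A W' hW') (W.comap W'.subtype) (comap_le_comap A hW hW')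

/-- The projection to the quotient of a subrepresentation by a smaller subrepresentation. -/
def subQuotMk {W W' : Submodule k A} (hW : ∀ g, W ≤ W.comap (A.ρ g))
    (hW' : ∀ g, W' ≤ W'.comap (A.ρ g)) : Rep.subrepresentation A W' hW' ⟶ subQuot A hW hW' :=
  Rep.mkQ (Rep.subrepresentation A W' hW') (W.comap W'.subtype) (comap_le_comap A hW hW')

theorem subQuotMk_surjective {W W' : Submodule k A} (hW : ∀ g, W ≤ W.comap (A.ρ g))
    (hW' : ∀ g, W' ≤ W'.comap (A.ρ g)) : Function.Surjective (subQuotMk A hW hW').hom :=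
  Submodule.mkQ_surjective (W.comap W'.subtype)

theorem subQuotMk_eq_zero_iff {W W' : Submodule k A} (hW : ∀ g, W ≤ W.comap (A.ρ g))
    (hW' : ∀ g, W' ≤ W'.comap (A.ρ g)) (y : W') :
    (subQuotMk A hW hW').hom y = 0 ↔ (y : A) ∈ W :=
  Submodule.Quotient.mk_eq_zero (W.comap W'.subtype)

theorem subIncl_subQuotMk_exact {W W' : Submodule k A} (h : W ≤ W')
    (hW : ∀ g, W ≤ W.comap (A.ρ g)) (hW' : ∀ g, W' ≤ W'.comap (A.ρ g)) :
    Function.Exact (subIncl A h hW hW').hom (subQuotMk A hW hW').hom := by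
  intro y
  rw [subQuotMk_eq_zero_iff]
  constructor
  · intro hy
    exact ⟨⟨(y : A), hy⟩, Subtype.ext rfl⟩
  · rintro ⟨x, rfl⟩
    exact x.2

/-- Short exactness in `Rep` from the three set-theoretic facts. -/
theorem shortExact_of_exact (X : ShortComplex (Rep.{0} k G)) (h1 : Function.Injective X.f.hom)
    (h2 : Function.Exact X.f.hom X.g.hom) (h3 : Function.Surjective X.g.hom) : X.ShortExact := by
  refine
    { exact := ?_
      mono_f := (Rep.mono_iff_injective X.f).2 h1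
      epi_g := (Rep.epi_iff_surjective X.g).2 h3 }
  rw [← ShortComplex.exact_map_iff_of_faithful X (forget₂ (Rep.{0} k G) (ModuleCat.{0} k)),
    ShortComplex.moduleCat_exact_iff]
  intro y hy
  exact (h2 y).1 hy

/-- Multiplication by a natural number, as an endomorphism of a representation. -/
def nsmulEnd (n : ℕ) : A ⟶ A := n • 𝟙 A

theorem nsmulEnd_apply (n : ℕ) (x : A) : (nsmulEnd A n).hom x = n • x := rfl

end Generic

/-! ### Subrepresentations of `ℚ̄ˣ` on Galois-stable subgroups -/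

/-- The subrepresentation of `ℚ̄ˣ` on a Galois-stable subgroup. -/
def unitsRep (H : Subgroup Qbˣ) (hH : ∀ (g : GQ) (u : Qbˣ), u ∈ H → g • u ∈ H) : Rep.{0} ℤ GQ :=
  Rep.subrepresentation baseRep (subOf H) (subOf_le_comap hH)

namespace unitsRep

variable {H H' : Subgroup Qbˣ} {hH : ∀ (g : GQ) (u : Qbˣ), u ∈ H → g • u ∈ H}
  {hH' : ∀ (g : GQ) (u : Qbˣ), u ∈ H' → g • u ∈ H'}

/-- The unit of `ℚ̄` underlying an element of `unitsRep H hH`. -/
def val (x : unitsRep H hH) : Qbˣ := toUnit ((show ↥(subOf H) from x) : baseRep)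

theorem val_mem (x : unitsRep H hH) : val x ∈ H := (show ↥(subOf H) from x).2

/-- The element of `unitsRep H hH` given by an element of `H`. -/
def mk (u : Qbˣ) (hu : u ∈ H) : unitsRep H hH := (⟨ofUnit u, hu⟩ : ↥(subOf H))

@[simp] theorem val_mk (u : Qbˣ) (hu : u ∈ H) : val (mk u hu : unitsRep H hH) = u := rfl

theorem mk_val (x : unitsRep H hH) : mk (val x) (val_mem x) = x := rfl

theorem val_injective : Function.Injective (val : unitsRep H hH → Qbˣ) := by
  intro x y h
  have : (show ↥(subOf H) from x) = (show ↥(subOf H) from y) := Subtype.ext h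
  exact this

theorem val_add (x y : unitsRep H hH) : val (x + y) = val x * val y := rfl

theorem val_zero : val (0 : unitsRep H hH) = 1 := rfl

theorem val_neg (x : unitsRep H hH) : val (-x) = (val x)⁻¹ := rfl

theorem val_nsmul (n : ℕ) (x : unitsRep H hH) : val (n • x) = val x ^ n := by
  induction n with
  | zero => rw [zero_smul, pow_zero, val_zero]
  | succ n ih => rw [succ_nsmul, val_add, ih, pow_succ]

theorem val_ρ (g : GQ) (x : unitsRep H hH) : val ((unitsRep H hH).ρ g x) = g • val x := rfl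

theorem val_eq_one_iff (x : unitsRep H hH) : val x = 1 ↔ x = 0 :=
  ⟨fun h => val_injective (h.trans val_zero.symm), fun h => by rw [h, val_zero]⟩

/-- The inclusion `unitsRep H ⟶ unitsRep H'` for `H ≤ H'`. -/
def incl (h : H ≤ H') (hH : ∀ (g : GQ) (u : Qbˣ), u ∈ H → g • u ∈ H)
    (hH' : ∀ (g : GQ) (u : Qbˣ), u ∈ H' → g • u ∈ H') : unitsRep H hH ⟶ unitsRep H' hH' :=
  subIncl baseRep (subOf_mono h) _ _

@[simp] theorem val_incl (h : H ≤ H') (x : unitsRep H hH) :
    val ((incl h hH hH').hom x) = val x := rfl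

theorem incl_injective (h : H ≤ H') : Function.Injective (incl h hH hH').hom :=
  subIncl_injective baseRep _ _ _

theorem mem_range_incl_iff (h : H ≤ H') (y : unitsRep H' hH') :
    y ∈ Set.range (incl h hH hH').hom ↔ val y ∈ H := by
  constructor
  · rintro ⟨x, rfl⟩
    exact val_mem x
  · intro hy
    exact ⟨mk (val y) hy, val_injective rfl⟩

end unitsRep

/-! ### The four modules and the morphisms between them -/

theorem qsStable (S : Finset Nat.Primes) (g : GQ) (u : Qbˣ) (hu : u ∈ qsUnits S) :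
    g • u ∈ qsUnits S := smul_mem_qsUnits g hu

theorem esStable (S : Finset Nat.Primes) (g : GQ) (u : Qbˣ) (hu : u ∈ sUnits S) :
    g • u ∈ sUnits S := smul_mem_sUnits g hu

theorem muStable (p : ℕ) (g : GQ) (u : Qbˣ) (hu : u ∈ muUnits p) :
    g • u ∈ muUnits p := smul_mem_muUnits g hu

/-- `ℚ_S^×` as a representation of `Gal(ℚ̄/ℚ)`. -/
abbrev QSx (S : Finset Nat.Primes) : Rep.{0} ℤ GQ := unitsRep (qsUnits S) (qsStable S)

/-- The `S`-units `E_S` of `ℚ_S` as a representation of `Gal(ℚ̄/ℚ)`. -/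
abbrev ESx (S : Finset Nat.Primes) : Rep.{0} ℤ GQ := unitsRep (sUnits S) (esStable S)

/-- `μ_p` as a representation of `Gal(ℚ̄/ℚ)`. -/
abbrev Mux (p : ℕ) : Rep.{0} ℤ GQ := unitsRep (muUnits p) (muStable p)

/-- `P_S = ℚ_S^× / E_S` as a representation of `Gal(ℚ̄/ℚ)`. -/
def PSx (S : Finset Nat.Primes) : Rep.{0} ℤ GQ :=
  subQuot baseRep (subOf_le_comap (esStable S)) (subOf_le_comap (qsStable S))

/-- The inclusion `E_S ⟶ ℚ_S^×`. -/
def esToQs (S : Finset Nat.Primes) : ESx S ⟶ QSx S :=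
  unitsRep.incl (sUnits_le_qsUnits S) _ _

/-- The projection `ℚ_S^× ⟶ P_S`. -/
def qsToPs (S : Finset Nat.Primes) : QSx S ⟶ PSx S :=
  subQuotMk baseRep (subOf_le_comap (esStable S)) (subOf_le_comap (qsStable S))

@[simp] theorem val_esToQs (S : Finset Nat.Primes) (x : ESx S) :
    unitsRep.val ((esToQs S).hom x) = unitsRep.val x := rfl

theorem qsToPs_eq_zero_iff (S : Finset Nat.Primes) (y : QSx S) :
    (qsToPs S).hom y = 0 ↔ unitsRep.val y ∈ sUnits S :=
  subQuotMk_eq_zero_iff baseRep _ _ _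

theorem esToQs_injective (S : Finset Nat.Primes) : Function.Injective (esToQs S).hom :=
  unitsRep.incl_injective _

theorem esToQs_qsToPs_exact (S : Finset Nat.Primes) :
    Function.Exact (esToQs S).hom (qsToPs S).hom :=
  subIncl_subQuotMk_exact baseRep _ _ _

theorem qsToPs_surjective (S : Finset Nat.Primes) : Function.Surjective (qsToPs S).hom :=
  subQuotMk_surjective baseRep _ _

theorem esToQs_comp_qsToPs (S : Finset Nat.Primes) : esToQs S ≫ qsToPs S = 0 := by
  ext x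
  exact (esToQs_qsToPs_exact S _).2 ⟨x, rfl⟩

/-- The short complex `E_S ⟶ ℚ_S^× ⟶ P_S`. -/
def gsShortComplex (S : Finset Nat.Primes) : ShortComplex (Rep.{0} ℤ GQ) :=
  ShortComplex.mk (esToQs S) (qsToPs S) (esToQs_comp_qsToPs S)

theorem gsShortComplex_shortExact (S : Finset Nat.Primes) : (gsShortComplex S).ShortExact :=
  shortExact_of_exact _ (esToQs_injective S) (esToQs_qsToPs_exact S) (qsToPs_surjective S)

/-! ### The Kummer sequence `0 → μ_p → E_S → E_S → 0` -/

section Kummer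

variable {p : ℕ} [Fact p.Prime] {S : Finset Nat.Primes}

/-- A `p`-th root of an `S`-unit of `ℚ_S` is an `S`-unit of `ℚ_S` (for `p ∈ S`). -/
theorem mem_sUnits_of_pow_mem (hpS : ExtCitation.pPrime p ∈ S) {α : Qbˣ}
    (hα : α ^ p ∈ sUnits S) : α ∈ sUnits S := by
  obtain ⟨⟨N, hN, huN⟩, hunit⟩ := hα
  have hp0 : p ≠ 0 := (Fact.out : p.Prime).ne_zero
  have hcop : ∀ q : Nat.Primes, q ∉ S → Nat.Coprime (q : ℕ) p := fun q hq => by
    have := H87.coprime_pow_of_mem hpS 1 q hq
    rwa [pow_one] at this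
  have hu' : ∀ q : Nat.Primes, q ∉ S → ∀ A : ValuationSubring Qb, A.LiesOverPrime (q : ℕ) →
      (α : Qb) ^ p ∈ A ∧ ((α : Qb) ^ p)⁻¹ ∈ A := by
    intro q hq A hA
    obtain ⟨h1, h2⟩ := hunit q hq A hA
    rw [Units.val_pow_eq_pow_val] at h1
    rw [Units.val_inv_eq_inv_val, Units.val_pow_eq_pow_val] at h2
    exact ⟨h1, h2⟩
  have hαN : (α : Qb) ^ p ∈ N := by
    rw [Units.val_pow_eq_pow_val] at huN
    exact huN
  refine ⟨⟨N ⊔ IntermediateField.adjoin ℚ {(α : Qb)},
    H87.isUnramifiedOutside_sup_adjoin_of_unit hp0 hcop hN hαN hu', ?_⟩, fun q hq A hA => ?_⟩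
  · exact (le_sup_right : IntermediateField.adjoin ℚ {(α : Qb)} ≤
      N ⊔ IntermediateField.adjoin ℚ {(α : Qb)}) (IntermediateField.mem_adjoin_simple_self ℚ _)
  · obtain ⟨h1, h2⟩ := hu' q hq A hA
    refine ⟨H87.mem_of_pow_mem A (Nat.pos_of_ne_zero hp0) h1, ?_⟩
    apply H87.mem_of_pow_mem A (Nat.pos_of_ne_zero hp0)
    rw [Units.val_inv_eq_inv_val, inv_pow]
    exact h2

theorem muUnits_le_sUnits (hpS : ExtCitation.pPrime p ∈ S) : muUnits p ≤ sUnits S := by
  intro u hu
  apply mem_sUnits_of_pow_mem hpS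
  rw [show u ^ p = 1 from hu]
  exact one_mem _

/-- The inclusion `μ_p ⟶ E_S` (for `p ∈ S`). -/
def muToEs (hpS : ExtCitation.pPrime p ∈ S) : Mux p ⟶ ESx S :=
  unitsRep.incl (muUnits_le_sUnits hpS) _ _

/-- The `p`-th power map `E_S ⟶ E_S`. -/
def powP (S : Finset Nat.Primes) (p : ℕ) : ESx S ⟶ ESx S := nsmulEnd (ESx S) p

@[simp] theorem val_muToEs (hpS : ExtCitation.pPrime p ∈ S) (x : Mux p) :
    unitsRep.val ((muToEs hpS).hom x) = unitsRep.val x := rfl

omit [Fact p.Prime] in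
@[simp] theorem val_powP (x : ESx S) : unitsRep.val ((powP S p).hom x) = unitsRep.val x ^ p := by
  show unitsRep.val (p • x) = _
  exact unitsRep.val_nsmul p x

theorem muToEs_injective (hpS : ExtCitation.pPrime p ∈ S) :
    Function.Injective (muToEs hpS).hom :=
  unitsRep.incl_injective _

theorem muToEs_powP_exact (hpS : ExtCitation.pPrime p ∈ S) :
    Function.Exact (muToEs hpS).hom (powP S p).hom := by
  intro y
  rw [← unitsRep.val_eq_one_iff, val_powP]
  exact (unitsRep.mem_range_incl_iff (muUnits_le_sUnits hpS) y).symm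

theorem powP_surjective (hpS : ExtCitation.pPrime p ∈ S) :
    Function.Surjective (powP S p).hom := by
  intro y
  have hp0 : p ≠ 0 := (Fact.out : p.Prime).ne_zero
  obtain ⟨α, hα⟩ := IsAlgClosed.exists_pow_nat_eq ((unitsRep.val y : Qbˣ) : Qb)
    (Nat.pos_of_ne_zero hp0)
  have hα0 : α ≠ 0 := by
    rintro rfl
    rw [zero_pow hp0] at hα
    exact (unitsRep.val y).ne_zero hα.symm
  have hpow : (Units.mk0 α hα0) ^ p = unitsRep.val y := by
    apply Units.ext
    rw [Units.val_pow_eq_pow_val]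
    exact hα
  have hmem : Units.mk0 α hα0 ∈ sUnits S := by
    apply mem_sUnits_of_pow_mem hpS
    rw [hpow]
    exact unitsRep.val_mem y
  refine ⟨unitsRep.mk (Units.mk0 α hα0) hmem, unitsRep.val_injective ?_⟩
  rw [val_powP, unitsRep.val_mk, hpow]

theorem muToEs_comp_powP (hpS : ExtCitation.pPrime p ∈ S) : muToEs hpS ≫ powP S p = 0 := by
  ext x
  exact (muToEs_powP_exact hpS _).2 ⟨x, rfl⟩

/-- The Kummer short complex `μ_p ⟶ E_S ⟶ E_S`. -/
def kummerShortComplex (hpS : ExtCitation.pPrime p ∈ S) : ShortComplex (Rep.{0} ℤ GQ) :=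
  ShortComplex.mk (muToEs hpS) (powP S p) (muToEs_comp_powP hpS)

theorem kummerShortComplex_shortExact (hpS : ExtCitation.pPrime p ∈ S) :
    (kummerShortComplex hpS).ShortExact :=
  shortExact_of_exact _ (muToEs_injective hpS) (muToEs_powP_exact hpS) (powP_surjective hpS)

end Kummer

/-! ### Pointwise smoothness -/

section Smooth

variable {S : Finset Nat.Primes}

/-- Every element of a subrepresentation of `ℚ_S^×` is fixed by the fixing subgroup of a Galois
level unramified outside `S`. -/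
theorem unitsRep_smooth {H : Subgroup Qbˣ} {hH : ∀ (g : GQ) (u : Qbˣ), u ∈ H → g • u ∈ H}
    (hHS : H ≤ qsUnits S) (m : unitsRep H hH) :
    ∃ N : IntermediateField ℚ Qb, N.IsUnramifiedOutside S ∧ (N.fixingSubgroup).Normal ∧
      ∀ s ∈ N.fixingSubgroup, (unitsRep H hH).ρ s m = m := by
  obtain ⟨N, hN, hm⟩ := hHS (unitsRep.val_mem m)
  obtain ⟨N', h1, h2, h3, -⟩ := H43.exists_normal_level hN
  refine ⟨N', h1, h3, fun s hs => unitsRep.val_injective ?_⟩
  rw [unitsRep.val_ρ]
  apply Units.ext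
  rw [coe_smul_units]
  exact (IntermediateField.mem_fixingSubgroup_iff N' s).mp hs _ (h2 hm)

theorem QSx_smooth (m : QSx S) :
    ∃ N : IntermediateField ℚ Qb, N.IsUnramifiedOutside S ∧ (N.fixingSubgroup).Normal ∧
      ∀ s ∈ N.fixingSubgroup, (QSx S).ρ s m = m :=
  unitsRep_smooth le_rfl m

theorem ESx_smooth (m : ESx S) :
    ∃ N : IntermediateField ℚ Qb, N.IsUnramifiedOutside S ∧ (N.fixingSubgroup).Normal ∧
      ∀ s ∈ N.fixingSubgroup, (ESx S).ρ s m = m :=
  unitsRep_smooth (sUnits_le_qsUnits S) m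

theorem Mux_smooth {p : ℕ} [Fact p.Prime] (hpS : ExtCitation.pPrime p ∈ S) (m : Mux p) :
    ∃ N : IntermediateField ℚ Qb, N.IsUnramifiedOutside S ∧ (N.fixingSubgroup).Normal ∧
      ∀ s ∈ N.fixingSubgroup, (Mux p).ρ s m = m :=
  unitsRep_smooth ((muUnits_le_sUnits hpS).trans (sUnits_le_qsUnits S)) m

theorem PSx_smooth (m : PSx S) :
    ∃ N : IntermediateField ℚ Qb, N.IsUnramifiedOutside S ∧ (N.fixingSubgroup).Normal ∧
      ∀ s ∈ N.fixingSubgroup, (PSx S).ρ s m = m := by
  obtain ⟨m', rfl⟩ := qsToPs_surjective S m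
  obtain ⟨N, h1, h2, h3⟩ := QSx_smooth m'
  refine ⟨N, h1, h2, fun s hs => ?_⟩
  rw [← Rep.hom_comm_apply, h3 s hs]

end Smooth

/-! ### The level datum of `G_S(F)` and restriction to `Gal(ℚ̄/F)` -/

/-- The level datum on `Gal(ℚ̄/F)`: levels = finite extensions of `ℚ` unramified outside `S`. -/
def fieldDatum (S : Finset Nat.Primes) (F : IntermediateField ℚ Qb) :
    H49.LevelDatum ↥F.fixingSubgroup where
  r := F.fixingSubgroup.subtype
  Lev := fun N => N.IsUnramifiedOutside S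
  bot := IntermediateField.isUnramifiedOutside_bot S
  sup := fun h h' => h.sup h'

/-- Restriction of a representation of `Gal(ℚ̄/ℚ)` to `Gal(ℚ̄/F)`. -/
abbrev resF (F : IntermediateField ℚ Qb) (M : Rep.{0} ℤ GQ) : Rep.{0} ℤ ↥F.fixingSubgroup :=
  Rep.res F.fixingSubgroup.subtype M

theorem fieldDatum_hasNormalLevels (S : Finset Nat.Primes) (F : IntermediateField ℚ Qb) :
    (fieldDatum S F).HasNormalLevels := fun N hN => by
  obtain ⟨N', h1, h2, h3, -⟩ := H43.exists_normal_level (S := S) hN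
  exact ⟨N', h1, h2, h3⟩

theorem finiteIndex_fixingSubgroup (N : IntermediateField ℚ Qb) [FiniteDimensional ℚ N] :
    (N.fixingSubgroup).FiniteIndex := by
  have : Algebra.IsAlgebraic ℚ Qb := AlgebraicClosure.isAlgebraic ℚ
  have : IsAlgClosure ℚ Qb := ⟨inferInstance, inferInstance⟩
  have : IsGalois ℚ Qb := IsAlgClosure.isGalois ℚ Qb
  refine ⟨?_⟩
  rw [← IntermediateField.finrank_eq_fixingSubgroup_index]
  exact Module.finrank_pos.ne'

theorem fieldDatum_finiteIndex (S : Finset Nat.Primes) (F N : IntermediateField ℚ Qb)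
    (hN : (fieldDatum S F).Lev N) : ((fieldDatum S F).sub N).FiniteIndex := by
  have := hN.1
  have := finiteIndex_fixingSubgroup N
  exact Subgroup.instFiniteIndex_subgroupOf N.fixingSubgroup F.fixingSubgroup

/-- Pointwise smoothness in the form consumed by level-constant cochains of `fieldDatum S F`. -/
theorem resF_smooth_of {S : Finset Nat.Primes} (F : IntermediateField ℚ Qb) {M : Rep.{0} ℤ GQ}
    (hM : ∀ m : M, ∃ N : IntermediateField ℚ Qb, N.IsUnramifiedOutside S ∧
      (N.fixingSubgroup).Normal ∧ ∀ s ∈ N.fixingSubgroup, M.ρ s m = m) (m : resF F M) :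
    ∃ N : IntermediateField ℚ Qb, (fieldDatum S F).Lev N ∧ (N.fixingSubgroup).Normal ∧
      ∀ s, (fieldDatum S F).r s ∈ N.fixingSubgroup → (resF F M).ρ s m = m := by
  obtain ⟨N, h1, h2, h3⟩ := hM m
  exact ⟨N, h1, h2, fun s hs => h3 _ hs⟩

/-- The restriction to `Gal(ℚ̄/F)` of `E_S ⟶ ℚ_S^× ⟶ P_S`. -/
def gsShortComplexF (S : Finset Nat.Primes) (F : IntermediateField ℚ Qb) :
    ShortComplex (Rep.{0} ℤ ↥F.fixingSubgroup) :=
  (gsShortComplex S).map (Rep.resFunctor F.fixingSubgroup.subtype)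

theorem gsShortComplexF_shortExact (S : Finset Nat.Primes) (F : IntermediateField ℚ Qb) :
    (gsShortComplexF S F).ShortExact :=
  (Rep.shortExact_res _).2 (gsShortComplex_shortExact S)

theorem gsShortComplexF_smooth (S : Finset Nat.Primes) (F : IntermediateField ℚ Qb)
    (m : (gsShortComplexF S F).X₂) :
    ∃ N : IntermediateField ℚ Qb, (fieldDatum S F).Lev N ∧ (N.fixingSubgroup).Normal ∧
      ∀ s, (fieldDatum S F).r s ∈ N.fixingSubgroup → (gsShortComplexF S F).X₂.ρ s m = m :=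
  resF_smooth_of F (M := QSx S) QSx_smooth m

/-- The restriction to `Gal(ℚ̄/F)` of the Kummer sequence `μ_p ⟶ E_S ⟶ E_S`. -/
def kummerShortComplexF {p : ℕ} [Fact p.Prime] {S : Finset Nat.Primes}
    (hpS : ExtCitation.pPrime p ∈ S) (F : IntermediateField ℚ Qb) :
    ShortComplex (Rep.{0} ℤ ↥F.fixingSubgroup) :=
  (kummerShortComplex hpS).map (Rep.resFunctor F.fixingSubgroup.subtype)

theorem kummerShortComplexF_shortExact {p : ℕ} [Fact p.Prime] {S : Finset Nat.Primes}
    (hpS : ExtCitation.pPrime p ∈ S) (F : IntermediateField ℚ Qb) :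
    (kummerShortComplexF hpS F).ShortExact :=
  (Rep.shortExact_res _).2 (kummerShortComplex_shortExact hpS)

theorem kummerShortComplexF_smooth {p : ℕ} [Fact p.Prime] {S : Finset Nat.Primes}
    (hpS : ExtCitation.pPrime p ∈ S) (F : IntermediateField ℚ Qb)
    (m : (kummerShortComplexF hpS F).X₂) :
    ∃ N : IntermediateField ℚ Qb, (fieldDatum S F).Lev N ∧ (N.fixingSubgroup).Normal ∧
      ∀ s, (fieldDatum S F).r s ∈ N.fixingSubgroup → (kummerShortComplexF hpS F).X₂.ρ s m = m :=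
  resF_smooth_of F (M := ESx S) ESx_smooth m

end Fermat.Agent.S55.H42

end
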